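/-
Fermat/Agent/T1/InvBasis70/Abstract.lean  (helper70, programme T1A, brick 558 `G9-H6`, part (3))

**Invariant basis of `H¹` for a chart action.**

`D : CechData W B0 B1 B01 g` (the Čech datum of the two-chart curve, `ρ_j = algebraMap B_j B01`),
`H : ChartAction c0 G` an action of a group `G` on the chart system which factors through a FINITE
set (`q : G → T`), `R ⊆ W` a PID such that `R = W^G`, and trivial inertia (`hunr`: every `g` either
acts trivially on `W` and `B01`, or moves some `y : W` by a unit).  Then the basis `D.b` can be replaced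
by a `G`-INVARIANT one: `exists_invariant_cechData`.

The proof is helper25's `InvBasis25.exists_invariant_basis` applied to the finite group
`Γ := range (G → Aut W × Aut B01)`.
-/
import Mathlib
import Fermat.Agent.T1.CechFormal70.BaseChange
import Fermat.Agent.T1.GalAct44
import Fermat.Agent.T1.InvBasis25.Main

set_option autoImplicit false
set_option linter.unusedSectionVars false
set_option linter.style.haveILetI false

noncomputable section

namespace Fermat.Agent.T1.InvBasis70

open Fermat.Agent.Jac Fermat.Agent.T1.RedIface75 Fermat.Agent.T1.GalAct44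
open Fermat.Agent.T1.CechFormal70

universe u v

variable {W B0 B1 B01 : Type u} [CommRing W] [CommRing B0] [CommRing B1] [CommRing B01]
  [Algebra W B0] [Algebra W B1] [Algebra W B01] [Algebra B0 B01] [Algebra B1 B01]
  [IsScalarTower W B0 B01] [IsScalarTower W B1 B01]
  {c0 : TwoChart W B0 B1 B01} {G : Type v} [Group G] (H : ChartAction c0 G)

theorem σ01_inv_apply (g : G) (b : B01) : (H.S g⁻¹).σ01 ((H.S g).σ01 b) = b := by
  have := congrArg (fun φ : B01 →+* B01 => φ b) (H.mul01 g⁻¹ g)
  simpa [inv_mul_cancel, H.one01] using this.symm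

theorem σ01_apply_inv (g : G) (b : B01) : (H.S g).σ01 ((H.S g⁻¹).σ01 b) = b := by
  have := congrArg (fun φ : B01 →+* B01 => φ b) (H.mul01 g g⁻¹)
  simpa [mul_inv_cancel, H.one01] using this.symm

/-- The action on `W` as a homomorphism to the automorphism group. -/
def autW : G →* RingAut W where
  toFun g := RingEquiv.ofRingHom (H.S g).σW (H.S g⁻¹).σW
    (RingHom.ext fun w => H.σW_apply_inv g w) (RingHom.ext fun w => H.σW_inv_apply g w)
  map_one' := by
    ext w
    show (H.S 1).σW w = w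
    rw [H.oneW]; rfl
  map_mul' g h := by
    ext w
    show (H.S (g * h)).σW w = (H.S g).σW ((H.S h).σW w)
    rw [H.mulW]; rfl

/-- The action on `B01` as a homomorphism to the automorphism group. -/
def aut01 : G →* RingAut B01 where
  toFun g := RingEquiv.ofRingHom (H.S g).σ01 (H.S g⁻¹).σ01
    (RingHom.ext fun w => σ01_apply_inv H g w) (RingHom.ext fun w => σ01_inv_apply H g w)
  map_one' := by
    ext w
    show (H.S 1).σ01 w = w
    rw [H.one01]; rfl
  map_mul' g h := by
    ext w
    show (H.S (g * h)).σ01 w = (H.S g).σ01 ((H.S h).σ01 w)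
    rw [H.mul01]; rfl

@[simp] theorem autW_apply (g : G) (w : W) : autW H g w = (H.S g).σW w := rfl

@[simp] theorem aut01_apply (g : G) (b : B01) : aut01 H g b = (H.S g).σ01 b := rfl

/-- The combined homomorphism. -/
def autPair : G →* RingAut W × RingAut B01 := (autW H).prod (aut01 H)

/-- The image group. -/
abbrev Gam : Subgroup (RingAut W × RingAut B01) := (autPair H).range

/-- The element of `Gam` attached to `g`. -/
def toGam (g : G) : Gam H := ⟨autPair H g, g, rfl⟩

theorem toGam_surjective : Function.Surjective (toGam H) := by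
  rintro ⟨_, g, rfl⟩
  exact ⟨g, rfl⟩

theorem autPair_eq_of {g h : G} (hW : (H.S g).σW = (H.S h).σW)
    (h01 : (H.S g).σ01 = (H.S h).σ01) : autPair H g = autPair H h := by
  refine Prod.ext ?_ ?_
  · ext w
    show (H.S g).σW w = (H.S h).σW w
    rw [hW]
  · ext w
    show (H.S g).σ01 w = (H.S h).σ01 w
    rw [h01]

theorem finite_Gam {T : Type*} [Finite T] (q : G → T)
    (hq : ∀ g h, q g = q h → (H.S g).σW = (H.S h).σW ∧ (H.S g).σ01 = (H.S h).σ01) :
    Finite (Gam H) := by
  classical
  have : Finite (Set.range q) := inferInstance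
  let f : Set.range q → Gam H := fun t => toGam H t.2.choose
  refine Finite.of_surjective f ?_
  intro γ
  obtain ⟨g, rfl⟩ := toGam_surjective H γ
  refine ⟨⟨q g, g, rfl⟩, ?_⟩
  have h1 : q (⟨q g, g, rfl⟩ : Set.range q).2.choose = q g :=
    (⟨q g, g, rfl⟩ : Set.range q).2.choose_spec
  obtain ⟨hW, h01⟩ := hq _ _ h1
  exact Subtype.ext (autPair_eq_of H hW h01)

/-- The action of `Gam` on `W`. -/
@[reducible] def actW : MulSemiringAction (Gam H) W :=
  MulSemiringAction.compHom W ((MonoidHom.fst (RingAut W) (RingAut B01)).comp (Gam H).subtype)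

/-- The action of `Gam` on `B01`. -/
@[reducible] def act01 : MulSemiringAction (Gam H) B01 :=
  MulSemiringAction.compHom B01 ((MonoidHom.snd (RingAut W) (RingAut B01)).comp (Gam H).subtype)

theorem toGam_smulW (g : G) (w : W) :
    letI := actW H
    toGam H g • w = (H.S g).σW w := rfl

theorem toGam_smul01 (g : G) (b : B01) :
    letI := act01 H
    toGam H g • b = (H.S g).σ01 b := rfl

variable {gn : ℕ} (D : CechData W B0 B1 B01 gn)

/-- The submodule `B0 + B1` of `B01`. -/
def sumRange : Submodule W B01 :=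
  LinearMap.range D.ρ0.toLinearMap ⊔ LinearMap.range D.ρ1.toLinearMap

theorem mem_sumRange {y : B01} :
    y ∈ sumRange D ↔ ∃ (x0 : B0) (x1 : B1), y = D.ρ0 x0 + D.ρ1 x1 := by
  unfold sumRange
  rw [Submodule.mem_sup]
  constructor
  · rintro ⟨_, ⟨x0, rfl⟩, _, ⟨x1, rfl⟩, rfl⟩
    exact ⟨x0, x1, rfl⟩
  · rintro ⟨x0, x1, rfl⟩
    exact ⟨_, ⟨x0, rfl⟩, _, ⟨x1, rfl⟩, rfl⟩

/-- **Invariant basis of `H¹` for a chart action** (brick G9-H6 (3), abstract form). -/
theorem exists_invariant_cechData
    (hρ0 : ∀ x, D.ρ0 x = algebraMap B0 B01 x) (hρ1 : ∀ x, D.ρ1 x = algebraMap B1 B01 x)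
    {T : Type*} [Finite T] (q : G → T)
    (hq : ∀ g h, q g = q h → (H.S g).σW = (H.S h).σW ∧ (H.S g).σ01 = (H.S h).σ01)
    {R : Type*} [CommRing R] [IsDomain R] [IsPrincipalIdealRing R] [IsDomain W] [Algebra R W]
    (hinj : Function.Injective (algebraMap R W))
    (hR : ∀ (g : G) (r : R), (H.S g).σW (algebraMap R W r) = algebraMap R W r)
    (hfix : ∀ w : W, (∀ g : G, (H.S g).σW w = w) → ∃ r : R, algebraMap R W r = w)
    (hunr : ∀ g : G, ((H.S g).σW = RingHom.id W ∧ (H.S g).σ01 = RingHom.id B01) ∨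
      ∃ y : W, IsUnit (y - (H.S g).σW y)) :
    ∃ D' : CechData W B0 B1 B01 gn, D'.ρ0 = D.ρ0 ∧ D'.ρ1 = D.ρ1 ∧
      ∀ (g : G) (i : Fin gn), (H.S g).σ01 (D'.b i) = D'.b i := by
  classical
  haveI : Finite (Gam H) := finite_Gam H q hq
  letI := actW H
  letI i01 := act01 H
  haveI : SMulCommClass (Gam H) R W := ⟨fun γ r w => by
    obtain ⟨g, rfl⟩ := toGam_surjective H γ
    show (H.S g).σW (r • w) = r • (H.S g).σW w
    rw [Algebra.smul_def, Algebra.smul_def, map_mul, hR]⟩
  haveI : Algebra.IsInvariant R W (Gam H) := ⟨fun w hw => hfix w fun g => hw (toGam H g)⟩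
  have hunr' : ∀ γ : Gam H, γ ≠ 1 → ∃ y : W, IsUnit (y - γ • y) := by
    intro γ hγ
    obtain ⟨g, rfl⟩ := toGam_surjective H γ
    rcases hunr g with ⟨hW, h01⟩ | h
    · exfalso
      apply hγ
      apply Subtype.ext
      show autPair H g = 1
      refine Prod.ext ?_ ?_
      · ext w
        show (H.S g).σW w = w
        rw [hW]; rfl
      · ext w
        show (H.S g).σ01 w = w
        rw [h01]; rfl
    · exact h
  have hsemi : ∀ (γ : Gam H) (r : W) (b : B01), γ • (r • b) = (γ • r) • (γ • b) := by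
    intro γ r b
    obtain ⟨g, rfl⟩ := toGam_surjective H γ
    exact (H.S g).semi01 r b
  have hC : ∀ (γ : Gam H), ∀ c ∈ sumRange D, γ • c ∈ sumRange D := by
    intro γ c hc
    obtain ⟨g, rfl⟩ := toGam_surjective H γ
    rw [mem_sumRange] at hc ⊢
    obtain ⟨x0, x1, rfl⟩ := hc
    refine ⟨(H.S g).σ0 x0, (H.S g).σ1 x1, ?_⟩
    show (H.S g).σ01 (D.ρ0 x0 + D.ρ1 x1) = _
    rw [map_add, hρ0, hρ1, (H.S g).comm0, (H.S g).comm1, hρ0, hρ1]
  have hspan : ∀ y : B01, ∃ c : Fin gn → W, y - ∑ i, c i • D.b i ∈ sumRange D := by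
    intro y
    obtain ⟨c, x0, x1, h⟩ := D.span y
    refine ⟨c, (mem_sumRange D).2 ⟨x0, x1, ?_⟩⟩
    rw [h]; ring
  have hind : ∀ c : Fin gn → W, ∑ i, c i • D.b i ∈ sumRange D → c = 0 := by
    intro c hc
    obtain ⟨x0, x1, h⟩ := (mem_sumRange D).1 hc
    funext i
    refine D.indep c (-x0) (-x1) ?_ i
    rw [h, map_neg, map_neg]; ring
  obtain ⟨b', hinv, hspan', hind'⟩ :=
    InvBasis25.exists_invariant_basis (R := R) (R' := W) (Γ := Gam H) (B := B01)
      hinj hunr' hsemi (sumRange D) hC D.b hspan hind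
  refine ⟨{ D with
      b := b'
      span := fun y => ?_
      indep := fun c x0 x1 h i => ?_ }, rfl, rfl, fun g i => hinv (toGam H g) i⟩
  · obtain ⟨c, hc⟩ := hspan' y
    obtain ⟨x0, x1, h⟩ := (mem_sumRange D).1 hc
    refine ⟨c, x0, x1, ?_⟩
    rw [add_assoc, ← h]; ring
  · have h1 : ∑ i, c i • b' i ∈ sumRange D := by
      refine (mem_sumRange D).2 ⟨-x0, -x1, ?_⟩
      rw [map_neg, map_neg]
      linear_combination h
    rw [hind' c h1]
    rfl

end Fermat.Agent.T1.InvBasis70
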