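/-
Fermat/Agent/T1/InvBasis70/Cyclo.lean  (helper70, programme T1A, brick 558 `G9-H6`, part (3))

**Invariant basis at the real hub.**  `W = A ∩ K1`, `A = padicPlace ℓ`, `K1 = ℚ(ζ_M)`, `ℓ ∤ M`,
`G = Gp ℓ` acting on the chart system by ANY `ChartAction H` such that

* (h1) `(H.S σ).σW` is the restriction of `res σ = localGaloisToGlobal ℓ σ` to `A ∩ K1`;
* (h2) `(H.S σ).σ01 = id` whenever `res σ` fixes `K1` pointwise.

Then every Čech datum `D` (with `ρ_j = algebraMap`) has a twin `D'` with `Gp ℓ`-invariant basis: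
`exists_invariant_cechData_K1`.  Ingredients of `Abstract.exists_invariant_cechData`:
`T = Gal(K1/ℚ)`, `R = A ∩ K1^{res(Gp ℓ)}` (a DVR), trivial inertia from `ζ_M - σ ζ_M` being a unit.
-/
import Mathlib
import Fermat.Agent.T1.InvBasis70.Abstract
import Fermat.Agent.T1.HubInst98.Galois
import Fermat.Agent.T1.HubInst98.Cyclo
import Fermat.Agent.T1.LocModel46.NumField
import Fermat.Agent.TW.B5.LG83B

set_option autoImplicit false
set_option linter.unusedSectionVars false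
set_option linter.style.haveILetI false

noncomputable section

namespace Fermat.Agent.T1.InvBasis70

open Fermat.Agent.Jac Fermat.Agent.T1.RedIface75 Fermat.Agent.T1.GalAct44
open Fermat.Agent.T1.CechFormal70
open Fermat.Agent.TW.B5.Iface
open Fermat.Agent.RED.Interface4 Fermat.Agent.RED.DESC.NumberFieldDVR27
open Fermat.Agent.T1.LocModel46 Fermat.Agent.T1.HubInst98

variable (ℓ : ℕ) [Fact ℓ.Prime] (M : ℕ) [NeZero M]

/-- The subfield of `K1 M` fixed by the image of the local Galois group. -/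
def fixK1 : IntermediateField ℚ Qbar :=
  K1 M ⊓ IntermediateField.fixedField (localGaloisToGlobal ℓ).range

theorem fixK1_le : fixK1 ℓ M ≤ K1 M := inf_le_left

theorem mem_fixK1 {x : Qbar} :
    x ∈ fixK1 ℓ M ↔ x ∈ K1 M ∧ ∀ σ : Gp ℓ, localGaloisToGlobal ℓ σ x = x := by
  unfold fixK1
  rw [IntermediateField.mem_inf, IntermediateField.mem_fixedField_iff]
  constructor
  · rintro ⟨h1, h2⟩
    exact ⟨h1, fun σ => h2 _ ⟨σ, rfl⟩⟩
  · rintro ⟨h1, h2⟩
    refine ⟨h1, ?_⟩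
    rintro _ ⟨σ, rfl⟩
    exact h2 σ

instance finiteDimensional_fixK1 : FiniteDimensional ℚ (fixK1 ℓ M) :=
  Module.Finite.of_injective (IntermediateField.inclusion (fixK1_le ℓ M)).toLinearMap
    (IntermediateField.inclusion_injective (fixK1_le ℓ M))

/-- `ζ_M` as an element of `W = A ∩ K1`. -/
def zetaW : AK (padicPlace ℓ) (K1 M) :=
  ⟨⟨Fermat.Agent.X0.zetaK M, zetaK_mem_K1 M⟩, by
    rw [mem_AK_iff, mem_place_iff_norm]
    have h1 : padicEmbedding ℓ (Fermat.Agent.X0.zetaK M) ^ M = 1 := by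
      rw [← map_pow, Fermat.Agent.X0.zetaK_pow_self, map_one]
    exact le_of_eq (IsOfFinOrder.norm_eq_one
      (isOfFinOrder_iff_pow_eq_one.2 ⟨M, Nat.pos_of_ne_zero (NeZero.ne M), h1⟩))⟩

theorem coe_zetaW : (((zetaW ℓ M : AK (padicPlace ℓ) (K1 M)) : K1 M) : Qbar) =
    Fermat.Agent.X0.zetaK M := rfl

/-- An automorphism of `K1 M` fixing `ζ_M` is the identity. -/
theorem eq_one_of_fixes_zeta (τ : K1 M ≃ₐ[ℚ] K1 M)
    (h : τ ⟨Fermat.Agent.X0.zetaK M, zetaK_mem_K1 M⟩ = ⟨Fermat.Agent.X0.zetaK M, zetaK_mem_K1 M⟩) :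
    τ = 1 := by
  have h2 : (τ : K1 M →ₐ[ℚ] K1 M) = AlgHom.id ℚ (K1 M) := by
    refine IntermediateField.algHom_ext_of_eq_adjoin ℚ (s := {Fermat.Agent.X0.zetaK M}) rfl ?_
    intro x hx
    have hx' : x = Fermat.Agent.X0.zetaK M := Set.mem_singleton_iff.1 hx
    subst hx'
    exact h
  ext x
  have := congrArg (fun φ : K1 M →ₐ[ℚ] K1 M => ((φ x : K1 M) : Qbar)) h2
  exact this

variable {B0 B1 B01 : Type} [CommRing B0] [CommRing B1] [CommRing B01]
  [Algebra (AK (padicPlace ℓ) (K1 M)) B0] [Algebra (AK (padicPlace ℓ) (K1 M)) B1]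
  [Algebra (AK (padicPlace ℓ) (K1 M)) B01] [Algebra B0 B01] [Algebra B1 B01]
  [IsScalarTower (AK (padicPlace ℓ) (K1 M)) B0 B01]
  [IsScalarTower (AK (padicPlace ℓ) (K1 M)) B1 B01]
  {c0 : TwoChart (AK (padicPlace ℓ) (K1 M)) B0 B1 B01}

/-- **Invariant basis at the real hub** (brick G9-H6 (3)). -/
theorem exists_invariant_cechData_K1 (hM : ¬ ℓ ∣ M)
    (H : ChartAction c0 (Gp ℓ))
    (h1 : ∀ (σ : Gp ℓ) (w : AK (padicPlace ℓ) (K1 M)),
      ((((H.S σ).σW w : AK (padicPlace ℓ) (K1 M)) : K1 M) : Qbar) =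
        localGaloisToGlobal ℓ σ ((w : K1 M) : Qbar))
    (h2 : ∀ σ : Gp ℓ, (∀ x ∈ K1 M, localGaloisToGlobal ℓ σ x = x) →
      (H.S σ).σ01 = RingHom.id B01)
    {gn : ℕ} (D : CechData (AK (padicPlace ℓ) (K1 M)) B0 B1 B01 gn)
    (hρ0 : ∀ x, D.ρ0 x = algebraMap B0 B01 x) (hρ1 : ∀ x, D.ρ1 x = algebraMap B1 B01 x) :
    ∃ D' : CechData (AK (padicPlace ℓ) (K1 M)) B0 B1 B01 gn, D'.ρ0 = D.ρ0 ∧ D'.ρ1 = D.ρ1 ∧
      ∀ (σ : Gp ℓ) (i : Fin gn), (H.S σ).σ01 (D'.b i) = D'.b i := by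
  classical
  -- the finite quotient
  let q : Gp ℓ → (K1 M ≃ₐ[ℚ] K1 M) := fun σ => resL (K1 M) (localGaloisToGlobal ℓ σ)
  have hq_mul : ∀ σ τ, q (σ * τ) = q σ * q τ := fun σ τ => by
    show resL (K1 M) (localGaloisToGlobal ℓ (σ * τ)) = _
    rw [map_mul, resL_mul]
  have hq_one : q 1 = 1 := by
    show resL (K1 M) (localGaloisToGlobal ℓ 1) = _
    rw [map_one, resL_one]
  have hq_coe : ∀ (σ : Gp ℓ) (x : K1 M), ((q σ x : K1 M) : Qbar) =
      localGaloisToGlobal ℓ σ (x : Qbar) := fun σ x => coe_resL (K1 M) _ x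
  -- `q σ = 1` iff `res σ` fixes `K1`
  have hfix_of : ∀ σ, q σ = 1 → ∀ x ∈ K1 M, localGaloisToGlobal ℓ σ x = x := by
    intro σ hσ x hx
    have := hq_coe σ ⟨x, hx⟩
    rw [hσ] at this
    exact this.symm
  have hW_of : ∀ σ τ, q σ = q τ → (H.S σ).σW = (H.S τ).σW := by
    intro σ τ hστ
    refine RingHom.ext fun w => Subtype.ext (Subtype.ext ?_)
    rw [h1, h1, ← hq_coe, ← hq_coe, hστ]
  have h01_of : ∀ σ τ, q σ = q τ → (H.S σ).σ01 = (H.S τ).σ01 := by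
    intro σ τ hστ
    have h3 : q (σ * τ⁻¹) = 1 := by
      have h4 : q τ * q τ⁻¹ = 1 := by rw [← hq_mul, mul_inv_cancel, hq_one]
      rw [hq_mul, hστ, h4]
    have h5 := h2 _ (hfix_of _ h3)
    have h6 : (H.S σ).σ01 = (H.S (σ * τ⁻¹)).σ01.comp (H.S τ).σ01 := by
      rw [← H.mul01, inv_mul_cancel_right]
    rw [h6, h5, RingHom.id_comp]
  -- the ring of invariants
  let hle := fixK1_le ℓ M
  letI : Algebra (AK (padicPlace ℓ) (fixK1 ℓ M)) (AK (padicPlace ℓ) (K1 M)) :=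
    algAK (padicPlace ℓ) hle
  haveI : IsDiscreteValuationRing (AK (padicPlace ℓ) (fixK1 ℓ M)) :=
    LocModel46.isDVR_AK ℓ (fixK1 ℓ M)
  have hcoe_alg : ∀ r : AK (padicPlace ℓ) (fixK1 ℓ M),
      (((algebraMap (AK (padicPlace ℓ) (fixK1 ℓ M)) (AK (padicPlace ℓ) (K1 M)) r :
        AK (padicPlace ℓ) (K1 M)) : K1 M) : Qbar) = ((r : fixK1 ℓ M) : Qbar) := fun r => rfl
  refine exists_invariant_cechData H D hρ0 hρ1 q (fun σ τ h => ⟨hW_of σ τ h, h01_of σ τ h⟩)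
    (R := AK (padicPlace ℓ) (fixK1 ℓ M)) (inclAK_injective (padicPlace ℓ) hle) ?_ ?_ ?_
  · -- `R` is fixed
    intro σ r
    refine Subtype.ext (Subtype.ext ?_)
    rw [h1, hcoe_alg]
    exact ((mem_fixK1 ℓ M).1 (r : fixK1 ℓ M).2).2 σ
  · -- invariants come from `R`
    intro w hw
    have hmem : ((w : K1 M) : Qbar) ∈ fixK1 ℓ M := by
      rw [mem_fixK1]
      refine ⟨(w : K1 M).2, fun σ => ?_⟩
      rw [← h1, hw σ]
    refine ⟨⟨⟨((w : K1 M) : Qbar), hmem⟩, ?_⟩, ?_⟩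
    · rw [mem_AK_iff]
      exact (mem_AK_iff _ _ _).1 w.2
    · exact Subtype.ext (Subtype.ext rfl)
  · -- trivial inertia
    intro σ
    by_cases hσ : q σ = 1
    · left
      refine ⟨?_, h2 σ (hfix_of σ hσ)⟩
      have := hW_of σ 1 (by rw [hσ, hq_one])
      rw [this, H.oneW]
    · right
      refine ⟨zetaW ℓ M, ?_⟩
      rw [← IsLocalRing.notMem_maximalIdeal, mem_maximalIdeal_AK_iff]
      intro hlt
      apply hσ
      apply eq_one_of_fixes_zeta
      apply Subtype.ext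
      rw [hq_coe]
      apply iota_injective ℓ
      have hcoe : ((((zetaW ℓ M - (H.S σ).σW (zetaW ℓ M) : AK (padicPlace ℓ) (K1 M)) : K1 M)) : Qbar) =
          Fermat.Agent.X0.zetaK M - localGaloisToGlobal ℓ σ (Fermat.Agent.X0.zetaK M) := by
        have := h1 σ (zetaW ℓ M)
        rw [coe_zetaW] at this
        rw [← this]
        rfl
      rw [hcoe, map_sub] at hlt
      have hz : padicEmbedding ℓ (Fermat.Agent.X0.zetaK M) ^ M = 1 := by
        rw [← map_pow, Fermat.Agent.X0.zetaK_pow_self, map_one]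
      have hz' : padicEmbedding ℓ (localGaloisToGlobal ℓ σ (Fermat.Agent.X0.zetaK M)) ^ M = 1 := by
        rw [← map_pow, ← map_pow, Fermat.Agent.X0.zetaK_pow_self, map_one, map_one]
      exact (Fermat.Agent.TW.B5.LG83B.eq_of_norm_sub_lt_one ℓ hM hz hz' hlt).symm

end Fermat.Agent.T1.InvBasis70
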