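/-
Fermat/Agent/T1/InvBasis70/Final.lean  (helper70, programme T1A, brick 558 `G9-H6`, part (3))

The invariant basis in the vocabulary of `Assembly41/FinalIface.lean`: from `WCompat ℓ M c0 H`.
-/
import Mathlib
import Fermat.Agent.T1.InvBasis70.Cyclo
import Fermat.Agent.T1.Assembly41.FinalIface

set_option autoImplicit false
set_option linter.unusedSectionVars false

noncomputable section

namespace Fermat.Agent.T1.InvBasis70

open Fermat.Agent.Jac Fermat.Agent.T1.RedIface75 Fermat.Agent.T1.GalAct44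
open Fermat.Agent.T1.CechFormal70
open Fermat.Agent.TW.B5.Iface
open Fermat.Agent.RED.Interface4
open Fermat.Agent.T1.HubInst98 Fermat.Agent.T1.Assembly41

variable (ℓ : ℕ) [Fact ℓ.Prime] (M : ℕ) [NeZero M]

variable {B0 B1 B01 : Type} [CommRing B0] [CommRing B1] [CommRing B01]
  [Algebra (Wr ℓ M) B0] [Algebra (Wr ℓ M) B1] [Algebra (Wr ℓ M) B01] [Algebra B0 B01]
  [Algebra B1 B01] [IsScalarTower (Wr ℓ M) B0 B01] [IsScalarTower (Wr ℓ M) B1 B01]
  {c0 : TwoChart (Wr ℓ M) B0 B1 B01}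

/-- **Invariant basis at the real hub**, from `WCompat`. -/
theorem exists_invariant_cechData_of_WCompat (hM : ¬ ℓ ∣ M)
    (H : ChartAction c0 (Gp ℓ)) (hW : WCompat ℓ M c0 H)
    (h2 : ∀ σ : Gp ℓ, (∀ x ∈ K1 M, localGaloisToGlobal ℓ σ x = x) →
      (H.S σ).σ01 = RingHom.id B01)
    {gn : ℕ} (D : CechData (Wr ℓ M) B0 B1 B01 gn)
    (hρ0 : ∀ x, D.ρ0 x = algebraMap B0 B01 x) (hρ1 : ∀ x, D.ρ1 x = algebraMap B1 B01 x) :
    ∃ D' : CechData (Wr ℓ M) B0 B1 B01 gn, D'.ρ0 = D.ρ0 ∧ D'.ρ1 = D.ρ1 ∧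
      ∀ (σ : Gp ℓ) (i : Fin gn), (H.S σ).σ01 (D'.b i) = D'.b i :=
  exists_invariant_cechData_K1 ℓ M hM H
    (fun σ w => by rw [hW σ w]; exact coe_coe_resO _ _ _ _ w) h2 D hρ0 hρ1

end Fermat.Agent.T1.InvBasis70
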